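import Mathlib.Algebra.BigOperators.Group.Finset.Basic
import Mathlib.Algebra.Group.Subgroup.Basic
import Mathlib.Algebra.Group.Action.Basic
import Mathlib.GroupTheory.OrderOfElement
import Mathlib.Data.Fintype.Perm
import Mathlib.Algebra.BigOperators.Fin
import Mathlib.Algebra.Group.TypeTags.Hom

/-!
# Abstract Hecke coset systems

`Γ` is a group with a homomorphism `ι : Γ →* G`, and `rep : X → G` is a finite family of elements
of `G` such that right translation by `Γ` permutes the cosets `Γ * rep x`.
The associated transfer operator on `Γ →* B` (`B` a commutative group) is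
`φ ↦ (g ↦ ∏ x, φ (coc g x))` where `rep x * g = coc g x * rep (act g x)`.
-/

set_option autoImplicit false

namespace Fermat.Agent.HeckePar

open scoped BigOperators

/-- A system of coset representatives permuted by right translation by `Γ`. -/
structure CosetSys {Γ G : Type*} [Group Γ] [Group G] (ι : Γ →* G) (X : Type*) where
  /-- representatives -/
  rep : X → G
  /-- right action on the index set -/
  act : Γ → X → X
  /-- the cocycle -/
  coc : Γ → X → Γ
  spec : ∀ g x, rep x * ι g = ι (coc g x) * rep (act g x)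
  inj : ∀ x y g, rep x = ι g * rep y → x = y
  ι_inj : Function.Injective ι

namespace CosetSys

variable {Γ G : Type*} [Group Γ] [Group G] {ι : Γ →* G} {X : Type*} (S : CosetSys ι X)

theorem ext_coc {g : Γ} {x y : X} {c : Γ} (h : S.rep x * ι g = ι c * S.rep y) :
    S.act g x = y ∧ S.coc g x = c := by
  have h1 := S.spec g x
  have h2 : S.rep (S.act g x) = ι ((S.coc g x)⁻¹ * c) * S.rep y := by
    rw [map_mul, map_inv, mul_assoc, ← h, h1, inv_mul_cancel_left]
  have h3 := S.inj _ _ _ h2
  refine ⟨h3, ?_⟩
  rw [h3, h] at h1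
  exact S.ι_inj (mul_right_cancel h1).symm

@[simp] theorem act_one (x : X) : S.act 1 x = x :=
  (S.ext_coc (g := 1) (x := x) (y := x) (c := 1) (by simp)).1

@[simp] theorem coc_one (x : X) : S.coc 1 x = 1 :=
  (S.ext_coc (g := 1) (x := x) (y := x) (c := 1) (by simp)).2

theorem mul_aux (g h : Γ) (x : X) :
    S.rep x * ι (g * h) = ι (S.coc g x * S.coc h (S.act g x)) * S.rep (S.act h (S.act g x)) := by
  rw [map_mul, ← mul_assoc, S.spec, mul_assoc, S.spec, map_mul, mul_assoc]

theorem act_mul (g h : Γ) (x : X) : S.act (g * h) x = S.act h (S.act g x) :=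
  (S.ext_coc (S.mul_aux g h x)).1

theorem coc_mul (g h : Γ) (x : X) : S.coc (g * h) x = S.coc g x * S.coc h (S.act g x) :=
  (S.ext_coc (S.mul_aux g h x)).2

theorem act_inv_act (g : Γ) (x : X) : S.act g⁻¹ (S.act g x) = x := by
  rw [← S.act_mul, mul_inv_cancel, act_one]

theorem act_act_inv (g : Γ) (x : X) : S.act g (S.act g⁻¹ x) = x := by
  rw [← S.act_mul, inv_mul_cancel, act_one]

/-- The permutation of the index set given by an element of `Γ`. -/
def perm (g : Γ) : Equiv.Perm X where
  toFun := S.act g
  invFun := S.act g⁻¹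
  left_inv := S.act_inv_act g
  right_inv := S.act_act_inv g

@[simp] theorem perm_apply (g : Γ) (x : X) : S.perm g x = S.act g x := rfl

theorem act_pow (g : Γ) (n : ℕ) (x : X) : S.act (g ^ n) x = ((S.perm g) ^ n) x := by
  induction n generalizing x with
  | zero => simp
  | succ n ih =>
    rw [pow_succ', S.act_mul, ih, pow_succ, Equiv.Perm.mul_apply, perm_apply]

variable [Fintype X]

section Transfer

variable {B : Type*} [CommGroup B]

/-- The transfer (Hecke) operator on homomorphisms into a commutative group. -/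
def transfer (φ : Γ →* B) : Γ →* B where
  toFun g := ∏ x, φ (S.coc g x)
  map_one' := by simp
  map_mul' g h := by
    simp only [S.coc_mul, map_mul, Finset.prod_mul_distrib]
    congr 1
    exact Equiv.prod_comp (S.perm g) (fun x => φ (S.coc h x))

theorem transfer_apply (φ : Γ →* B) (g : Γ) : S.transfer φ g = ∏ x, φ (S.coc g x) := rfl

theorem transfer_mul (φ ψ : Γ →* B) : S.transfer (φ * ψ) = S.transfer φ * S.transfer ψ := by
  ext g
  simp [transfer_apply, Finset.prod_mul_distrib]

@[simp] theorem transfer_one : S.transfer (1 : Γ →* B) = 1 := by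
  ext g
  simp [transfer_apply]

/-- naturality in the target. -/
theorem transfer_comp {C : Type*} [CommGroup C] (ψ : B →* C) (φ : Γ →* B) :
    S.transfer (ψ.comp φ) = ψ.comp (S.transfer φ) := by
  ext g
  simp [transfer_apply]

/-- if some positive power of `g` acts trivially on the index set and all its conjugates by the
representatives are killed by `φ`, then the transfer of `g` is torsion. -/
theorem transfer_pow_eq_one (φ : Γ →* B) (g : Γ)
    (h : ∀ (x : X) (n : ℕ), 0 < n → S.act (g ^ n) x = x → φ (S.coc (g ^ n) x) = 1) :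
    ∃ n : ℕ, 0 < n ∧ (S.transfer φ g) ^ n = 1 := by
  classical
  refine ⟨orderOf (S.perm g), orderOf_pos _, ?_⟩
  rw [← map_pow, transfer_apply]
  refine Finset.prod_eq_one fun x _ => h x _ (orderOf_pos _) ?_
  rw [act_pow, pow_orderOf_eq_one, Equiv.Perm.one_apply]

end Transfer

section AddTransfer

variable {A : Type*} [AddCommGroup A]

/-- Additive version of the transfer operator, as an additive endomorphism of `Hom(Γ, A)`. -/
def addTransfer : (Additive Γ →+ A) →+ (Additive Γ →+ A) where
  toFun φ :=
    { toFun := fun g => ∑ x, φ (Additive.ofMul (S.coc (Additive.toMul g) x))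
      map_zero' := by
        simp
      map_add' := fun g h => by
        simp only [toMul_add, S.coc_mul, ofMul_mul, map_add, Finset.sum_add_distrib]
        congr 1
        exact Equiv.sum_comp (S.perm (Additive.toMul g))
          (fun x => φ (Additive.ofMul (S.coc (Additive.toMul h) x))) }
  map_zero' := by ext g; simp
  map_add' φ ψ := by ext g; simp [Finset.sum_add_distrib]

theorem addTransfer_apply (φ : Additive Γ →+ A) (g : Additive Γ) :
    S.addTransfer φ g = ∑ x, φ (Additive.ofMul (S.coc (Additive.toMul g) x)) := rfl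

theorem addTransfer_comp {C : Type*} [AddCommGroup C] (ψ : A →+ C) (φ : Additive Γ →+ A) :
    S.addTransfer (ψ.comp φ) = ψ.comp (S.addTransfer φ) := by
  ext g
  simp [addTransfer_apply]

theorem addTransfer_toMul (φ : Additive Γ →+ A) (g : Γ) :
    S.transfer (AddMonoidHom.toMultiplicativeRight φ) g =
      Multiplicative.ofAdd (S.addTransfer φ (Additive.ofMul g)) := by
  rw [transfer_apply, addTransfer_apply, ofAdd_sum]
  rfl

/-- If a power of `g` acting trivially has all its conjugates killed by `φ`, and `A` is torsion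
free, then the transfer kills `g`. -/
theorem addTransfer_eq_zero [IsAddTorsionFree A] (φ : Additive Γ →+ A) (g : Γ)
    (h : ∀ (x : X) (n : ℕ), 0 < n → S.act (g ^ n) x = x →
      φ (Additive.ofMul (S.coc (g ^ n) x)) = 0) :
    S.addTransfer φ (Additive.ofMul g) = 0 := by
  classical
  have hn : 0 < orderOf (S.perm g) := orderOf_pos _
  have h1 : orderOf (S.perm g) • S.addTransfer φ (Additive.ofMul g) = 0 := by
    rw [← map_nsmul, ← ofMul_pow, addTransfer_apply]
    refine Finset.sum_eq_zero fun x _ => ?_
    refine h x _ (orderOf_pos _) ?_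
    rw [act_pow, pow_orderOf_eq_one, Equiv.Perm.one_apply]
  exact (nsmul_eq_zero_iff_right hn.ne').mp h1

end AddTransfer

section Functions

variable {H : Type*} [MulAction G H]

/-- The multiplicative Hecke operator on functions. -/
def mulOp {M : Type*} [CommMonoid M] (h : H → M) : H → M := fun τ => ∏ x, h (S.rep x • τ)

/-- The additive Hecke operator on functions. -/
def addOp {M : Type*} [AddCommMonoid M] (h : H → M) : H → M := fun τ => ∑ x, h (S.rep x • τ)

omit [Fintype X] in
theorem rep_smul_smul (g : Γ) (x : X) (τ : H) :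
    S.rep x • (ι g • τ) = ι (S.coc g x) • (S.rep (S.act g x) • τ) := by
  rw [← mul_smul, S.spec, mul_smul]

theorem mulOp_smul {M : Type*} [CommMonoid M] {B : Type*} [CommGroup B] (χ : Γ →* B)
    (j : B →* M) (h : H → M) (hh : ∀ (g : Γ) (τ : H), h (ι g • τ) = j (χ g) * h τ)
    (g : Γ) (τ : H) : S.mulOp h (ι g • τ) = j (S.transfer χ g) * S.mulOp h τ := by
  simp only [mulOp, S.rep_smul_smul, hh, Finset.prod_mul_distrib, transfer_apply, map_prod]
  congr 1
  exact Equiv.prod_comp (S.perm g) (fun x => h (S.rep x • τ))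

theorem addOp_smul {A : Type*} [AddCommGroup A] (φ : Additive Γ →+ A)
    (h : H → A) (hh : ∀ (g : Γ) (τ : H), h (ι g • τ) = φ (Additive.ofMul g) + h τ)
    (g : Γ) (τ : H) : S.addOp h (ι g • τ) = S.addTransfer φ (Additive.ofMul g) + S.addOp h τ := by
  simp only [addOp, S.rep_smul_smul, hh, Finset.sum_add_distrib, addTransfer_apply, toMul_ofMul]
  congr 1
  exact Equiv.sum_comp (S.perm g) (fun x => h (S.rep x • τ))

end Functions

end CosetSys

/-! ### Commutation of two coset systems -/

namespace CosetSys

variable {Γ G : Type*} [Group Γ] [Group G] {ι : Γ →* G} {X Y : Type*}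
  (S : CosetSys ι X) (T : CosetSys ι Y)

/-- Composite of two coset systems, with representatives `rep x * rep y`, provided that the
products represent distinct cosets. -/
def comp (hinj : ∀ (x x' : X) (y y' : Y) (g : Γ),
    S.rep x * T.rep y = ι g * (S.rep x' * T.rep y') → x = x' ∧ y = y') :
    CosetSys ι (X × Y) where
  rep p := S.rep p.1 * T.rep p.2
  act g p := (S.act (T.coc g p.2) p.1, T.act g p.2)
  coc g p := S.coc (T.coc g p.2) p.1
  spec g p := by
    rw [mul_assoc, T.spec, ← mul_assoc, S.spec, mul_assoc]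
  inj p q g h := by
    obtain ⟨h1, h2⟩ := hinj p.1 q.1 p.2 q.2 g h
    exact Prod.ext h1 h2
  ι_inj := S.ι_inj

theorem addTransfer_comp_sys [Fintype X] [Fintype Y] (hinj : ∀ (x x' : X) (y y' : Y) (g : Γ),
    S.rep x * T.rep y = ι g * (S.rep x' * T.rep y') → x = x' ∧ y = y')
    {A : Type*} [AddCommGroup A] (φ : Additive Γ →+ A) :
    (S.comp T hinj).addTransfer φ = T.addTransfer (S.addTransfer φ) := by
  refine AddMonoidHom.ext fun g => ?_
  rw [addTransfer_apply, addTransfer_apply, Fintype.sum_prod_type_right]
  rfl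

theorem transfer_comp_sys [Fintype X] [Fintype Y] (hinj : ∀ (x x' : X) (y y' : Y) (g : Γ),
    S.rep x * T.rep y = ι g * (S.rep x' * T.rep y') → x = x' ∧ y = y')
    {B : Type*} [CommGroup B] (φ : Γ →* B) :
    (S.comp T hinj).transfer φ = T.transfer (S.transfer φ) := by
  ext g
  rw [transfer_apply, transfer_apply, Fintype.prod_prod_type_right]
  rfl

/-- Two coset systems representing the same cosets have the same transfer. -/
theorem transfer_eq_of_equiv [Fintype X] [Fintype Y] (e : X ≃ Y) (κ : X → Γ)
    (h : ∀ x, S.rep x = ι (κ x) * T.rep (e x)) {B : Type*} [CommGroup B] (φ : Γ →* B) :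
    S.transfer φ = T.transfer φ := by
  have key : ∀ g x, e (S.act g x) = T.act g (e x) ∧
      κ x * T.coc g (e x) = S.coc g x * κ (S.act g x) := by
    intro g x
    have h1 : T.rep (e x) * ι g =
        ι ((κ x)⁻¹ * (S.coc g x * κ (S.act g x))) * T.rep (e (S.act g x)) := by
      have h2 := S.spec g x
      rw [h x, h (S.act g x)] at h2
      rw [map_mul, map_mul, map_inv]
      rw [mul_assoc, mul_assoc, ← h2, ← mul_assoc, ← mul_assoc, inv_mul_cancel, one_mul]
    obtain ⟨h3, h4⟩ := T.ext_coc h1
    exact ⟨h3.symm, by rw [h4, mul_inv_cancel_left]⟩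
  ext g
  rw [transfer_apply, transfer_apply, ← Equiv.prod_comp e]
  have h5 : ∀ x, φ (T.coc g (e x)) = (φ (κ x))⁻¹ * φ (S.coc g x) * φ (κ (S.act g x)) := by
    intro x
    have h6 := congrArg φ (key g x).2
    rw [map_mul, map_mul] at h6
    rw [mul_assoc, ← h6, inv_mul_cancel_left]
  simp only [h5, Finset.prod_mul_distrib]
  rw [show ∏ x, φ (κ (S.act g x)) = ∏ x, φ (κ x) from
    Equiv.prod_comp (S.perm g) (fun x => φ (κ x))]
  rw [Finset.prod_inv_distrib, mul_comm (∏ x, φ (κ x))⁻¹, inv_mul_cancel_right]

theorem addTransfer_eq_of_equiv [Fintype X] [Fintype Y] (e : X ≃ Y) (κ : X → Γ)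
    (h : ∀ x, S.rep x = ι (κ x) * T.rep (e x)) {A : Type*} [AddCommGroup A]
    (φ : Additive Γ →+ A) :
    S.addTransfer φ = T.addTransfer φ := by
  refine AddMonoidHom.ext fun g => ?_
  have h1 := DFunLike.congr_fun (S.transfer_eq_of_equiv T e κ h
    (AddMonoidHom.toMultiplicativeRight φ)) (Additive.toMul g)
  rw [addTransfer_toMul, addTransfer_toMul] at h1
  exact h1

end CosetSys

end Fermat.Agent.HeckePar
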