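import Mathlib.NumberTheory.ModularForms.CongruenceSubgroups
import Mathlib.Algebra.Field.ZMod
import Fermat.Prelude.Def_ModularForm_HeckeOperator
import Fermat.Agent.HeckePar.Abstract

/-!
# Hecke cosets for `Γ₀(N)`

For a prime `p` we use the representatives `[1 j; 0 p]` (`j : ZMod p`) and, when `p ∤ N`,
`[p 0; 0 1]`.
-/

set_option autoImplicit false

noncomputable section

open Matrix.SpecialLinearGroup
open scoped MatrixGroups ModularForm

namespace Fermat.Agent.HeckePar

/-- index set of the Hecke cosets at `p` for `Γ₀(N)`: `ZMod p`, with one extra point (`none`) when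
`p ∤ N`. -/
abbrev HIdx (N p : ℕ) : Type := {x : Option (ZMod p) // p ∣ N → x ≠ none}

instance instFintypeHIdx (N p : ℕ) [Fact p.Prime] : Fintype (HIdx N p) := by
  classical
  haveI : NeZero p := ⟨(Fact.out : p.Prime).ne_zero⟩
  exact Fintype.ofFinite {x : Option (ZMod p) // p ∣ N → x ≠ none}

/-- the integral representative of a coset. -/
def intRep (p : ℕ) : Option (ZMod p) → Matrix (Fin 2) (Fin 2) ℤ
  | none => !![(p : ℤ), 0; 0, 1]
  | some j => !![1, (j.val : ℤ); 0, (p : ℤ)]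

@[simp] theorem intRep_none (p : ℕ) : intRep p none = !![(p : ℤ), 0; 0, 1] := rfl

@[simp] theorem intRep_some (p : ℕ) (j : ZMod p) :
    intRep p (some j) = !![1, (j.val : ℤ); 0, (p : ℤ)] := rfl

theorem det_intRep (p : ℕ) (x : Option (ZMod p)) : (intRep p x).det = p := by
  cases x <;> simp [Matrix.det_fin_two_of]

/-- the representative of a coset in `GL₂(ℝ)`. -/
def hrep (p : ℕ) : Option (ZMod p) → GL (Fin 2) ℝ
  | none => ModularForm.heckeDiagMatrix p
  | some j => ModularForm.heckeMatrix p j.val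

theorem val_hrep {p : ℕ} (hp : p ≠ 0) (x : Option (ZMod p)) :
    ((hrep p x : GL (Fin 2) ℝ) : Matrix (Fin 2) (Fin 2) ℝ) = (intRep p x).map (Int.cast) := by
  cases x with
  | none =>
    rw [hrep, ModularForm.val_heckeDiagMatrix hp, intRep_none]
    ext i j
    fin_cases i <;> fin_cases j <;> simp
  | some j =>
    rw [hrep, ModularForm.val_heckeMatrix hp, intRep_some]
    ext i j
    fin_cases i <;> fin_cases j <;> simp

theorem det_SL (g : SL(2, ℤ)) : g 0 0 * g 1 1 - g 0 1 * g 1 0 = 1 := by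
  have h := g.det_coe
  rwa [Matrix.det_fin_two] at h

theorem val_mapGL (g : SL(2, ℤ)) :
    ((mapGL ℝ g : GL (Fin 2) ℝ) : Matrix (Fin 2) (Fin 2) ℝ) =
      (g : Matrix (Fin 2) (Fin 2) ℤ).map (Int.cast) := by
  ext i j
  simp

theorem map_intCast_injective :
    Function.Injective (fun M : Matrix (Fin 2) (Fin 2) ℤ => (M.map (Int.cast) : Matrix (Fin 2) (Fin 2) ℝ)) := by
  intro M M' h
  ext i j
  have := congrFun (congrFun h i) j
  simpa using this

theorem map_intCast_mul (M M' : Matrix (Fin 2) (Fin 2) ℤ) :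
    ((M * M').map (Int.cast) : Matrix (Fin 2) (Fin 2) ℝ) =
      (M.map (Int.cast) : Matrix (Fin 2) (Fin 2) ℝ) * (M'.map (Int.cast) : Matrix (Fin 2) (Fin 2) ℝ) := by
  have := Matrix.map_mul (f := Int.castRingHom ℝ) (L := M) (M := M')
  simpa using this

theorem mapGL_injective : Function.Injective (mapGL ℝ : SL(2, ℤ) →* GL (Fin 2) ℝ) := by
  intro _ _ h
  have h1 := congrArg (fun x : GL (Fin 2) ℝ => (x : Matrix (Fin 2) (Fin 2) ℝ)) h
  simp only [val_mapGL] at h1
  exact Subtype.ext (map_intCast_injective h1)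

/-- The embedding of `Γ₀(N)` into `GL₂(ℝ)`. -/
def iota (N : ℕ) : CongruenceSubgroup.Gamma0 N →* GL (Fin 2) ℝ :=
  (mapGL ℝ).comp (CongruenceSubgroup.Gamma0 N).subtype

@[simp] theorem iota_apply (N : ℕ) (g : CongruenceSubgroup.Gamma0 N) :
    iota N g = mapGL ℝ (g : SL(2, ℤ)) := rfl

theorem iota_injective (N : ℕ) : Function.Injective (iota N) := fun _ _ h =>
  Subtype.ext (mapGL_injective h)

theorem val_iota (N : ℕ) (g : CongruenceSubgroup.Gamma0 N) :
    ((iota N g : GL (Fin 2) ℝ) : Matrix (Fin 2) (Fin 2) ℝ) =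
      ((g : SL(2, ℤ)) : Matrix (Fin 2) (Fin 2) ℤ).map (Int.cast) := val_mapGL _

/-- Factorisation of integral matrices of determinant divisible by `p`. -/
theorem exists_factor {N p : ℕ} (hp : p.Prime) (M : Matrix (Fin 2) (Fin 2) ℤ) (m : ℤ)
    (hdet : M 0 0 * M 1 1 - M 0 1 * M 1 0 = p * m) (hc : (N : ℤ) ∣ M 1 0)
    (ha : p ∣ N → ¬ (p : ℤ) ∣ M 0 0) :
    ∃ (x : HIdx N p) (M' : Matrix (Fin 2) (Fin 2) ℤ), M = M' * intRep p x.1 ∧
      M' 0 0 * M' 1 1 - M' 0 1 * M' 1 0 = m ∧ (N : ℤ) ∣ M' 1 0 ∧ M' 0 0 ∣ M 0 0 := by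
  have : Fact p.Prime := ⟨hp⟩
  have hp0 : (p : ℤ) ≠ 0 := by exact_mod_cast hp.ne_zero
  by_cases hcol : (p : ℤ) ∣ M 0 0 ∧ (p : ℤ) ∣ M 1 0
  · have hpN : ¬ p ∣ N := fun h => ha h hcol.1
    obtain ⟨⟨a, ha'⟩, ⟨c, hc'⟩⟩ := hcol
    refine ⟨⟨none, fun h => absurd h hpN⟩, !![a, M 0 1; c, M 1 1], ?_, ?_, ?_, ?_⟩
    · ext i j
      fin_cases i <;> fin_cases j <;> simp [ha', hc', mul_comm]
    · simp only [Matrix.of_apply, Matrix.cons_val', Matrix.cons_val_zero, Matrix.cons_val_one,
        Matrix.cons_val_fin_one]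
      have : (p : ℤ) * (a * M 1 1 - M 0 1 * c) = p * m := by
        rw [← hdet, ha', hc']; ring
      exact mul_left_cancel₀ hp0 this
    · simp only [Matrix.of_apply, Matrix.cons_val', Matrix.cons_val_zero, Matrix.cons_val_one,
        Matrix.cons_val_fin_one]
      have hcop : IsCoprime (N : ℤ) (p : ℤ) :=
        Nat.isCoprime_iff_coprime.mpr ((Nat.Prime.coprime_iff_not_dvd hp).mpr hpN).symm
      exact hcop.dvd_of_dvd_mul_left (hc' ▸ hc)
    · simp only [Matrix.of_apply, Matrix.cons_val', Matrix.cons_val_zero, 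
        Matrix.cons_val_fin_one]
      exact ⟨p, by rw [ha']; ring⟩
  · -- find `j` with `b = j a`, `d = j c` mod `p`
    have hdet' : ((M 0 0 : ℤ) : ZMod p) * ((M 1 1 : ℤ) : ZMod p) =
        ((M 0 1 : ℤ) : ZMod p) * ((M 1 0 : ℤ) : ZMod p) := by
      have := congrArg (Int.cast : ℤ → ZMod p) hdet
      push_cast at this
      rw [CharP.cast_eq_zero, zero_mul] at this
      linear_combination this
    obtain ⟨j, hj1, hj2⟩ : ∃ j : ZMod p, ((M 0 1 : ℤ) : ZMod p) = j * ((M 0 0 : ℤ) : ZMod p) ∧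
        ((M 1 1 : ℤ) : ZMod p) = j * ((M 1 0 : ℤ) : ZMod p) := by
      by_cases h0 : ((M 0 0 : ℤ) : ZMod p) = 0
      · have h1 : ((M 1 0 : ℤ) : ZMod p) ≠ 0 := by
          intro h1
          exact hcol ⟨(ZMod.intCast_zmod_eq_zero_iff_dvd _ _).mp h0,
            (ZMod.intCast_zmod_eq_zero_iff_dvd _ _).mp h1⟩
        refine ⟨((M 1 1 : ℤ) : ZMod p) / ((M 1 0 : ℤ) : ZMod p), ?_, ?_⟩
        · rw [h0, mul_zero]
          rw [h0, zero_mul] at hdet'
          exact (mul_eq_zero.mp hdet'.symm).resolve_right h1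
        · rw [div_mul_cancel₀ _ h1]
      · refine ⟨((M 0 1 : ℤ) : ZMod p) / ((M 0 0 : ℤ) : ZMod p), ?_, ?_⟩
        · rw [div_mul_cancel₀ _ h0]
        · field_simp
          linear_combination hdet'
    have : NeZero p := ⟨hp.ne_zero⟩
    obtain ⟨b, hb⟩ : (p : ℤ) ∣ M 0 1 - j.val * M 0 0 := by
      rw [← ZMod.intCast_zmod_eq_zero_iff_dvd]
      push_cast
      rw [ZMod.natCast_zmod_val, hj1, sub_self]
    obtain ⟨d, hd⟩ : (p : ℤ) ∣ M 1 1 - j.val * M 1 0 := by
      rw [← ZMod.intCast_zmod_eq_zero_iff_dvd]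
      push_cast
      rw [ZMod.natCast_zmod_val, hj2, sub_self]
    refine ⟨⟨some j, fun _ => by simp⟩, !![M 0 0, b; M 1 0, d], ?_, ?_, ?_, ?_⟩
    · ext i k
      fin_cases i <;> fin_cases k <;> simp [Matrix.mul_apply, Fin.sum_univ_two, -ZMod.natCast_val]
      · linear_combination hb
      · linear_combination hd
    · simp only [Matrix.of_apply, Matrix.cons_val', Matrix.cons_val_zero, Matrix.cons_val_one,
        Matrix.cons_val_fin_one]
      have : (p : ℤ) * (M 0 0 * d - b * M 1 0) = p * m := by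
        rw [← hdet]; linear_combination (M 1 0) * hb - (M 0 0) * hd
      exact mul_left_cancel₀ hp0 this
    · simpa using hc
    · simp

/-- Uniqueness of the factorisation. -/
theorem intRep_unique {p : ℕ} (hp : p.Prime) (u : ℤ) (hu : ¬ (p : ℤ) ∣ u)
    (W : Matrix (Fin 2) (Fin 2) ℤ) (x y : Option (ZMod p))
    (h : u • intRep p x = W * intRep p y) : x = y := by
  have : Fact p.Prime := ⟨hp⟩
  have : NeZero p := ⟨hp.ne_zero⟩
  have h00 := congrFun (congrFun h 0) 0
  have h01 := congrFun (congrFun h 0) 1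
  have h10 := congrFun (congrFun h 1) 0
  have h11 := congrFun (congrFun h 1) 1
  cases x with
  | none =>
    cases y with
    | none => rfl
    | some k =>
      exfalso
      simp [Matrix.mul_apply, Fin.sum_univ_two, -ZMod.natCast_val] at h00 h01 h10 h11
      apply hu
      rw [← h10, zero_mul, zero_add] at h11
      exact ⟨_, by rw [h11]; ring⟩
  | some j =>
    cases y with
    | none =>
      exfalso
      simp [Matrix.mul_apply, Fin.sum_univ_two, -ZMod.natCast_val] at h00 h01 h10 h11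
      exact hu ⟨_, by rw [h00]; ring⟩
    | some k =>
      simp [Matrix.mul_apply, Fin.sum_univ_two, -ZMod.natCast_val] at h00 h01 h10 h11
      congr 1
      rw [← h00] at h01
      have h2 := congrArg (Int.cast : ℤ → ZMod p) h01
      push_cast at h2
      rw [ZMod.natCast_self, mul_zero, add_zero, ZMod.natCast_zmod_val,
        ZMod.natCast_zmod_val] at h2
      have hu' : (u : ZMod p) ≠ 0 := by
        rwa [Ne, ZMod.intCast_zmod_eq_zero_iff_dvd]
      exact mul_left_cancel₀ hu' h2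


theorem hrep_mul_iota_eq_iff {N p : ℕ} (hp : p ≠ 0) (x y : Option (ZMod p))
    (g c : CongruenceSubgroup.Gamma0 N) :
    hrep p x * iota N g = iota N c * hrep p y ↔
      intRep p x * ((g : SL(2, ℤ)) : Matrix (Fin 2) (Fin 2) ℤ) =
        ((c : SL(2, ℤ)) : Matrix (Fin 2) (Fin 2) ℤ) * intRep p y := by
  rw [← Units.val_inj, Units.val_mul, Units.val_mul, val_hrep hp, val_hrep hp, val_iota, val_iota,
    ← map_intCast_mul, ← map_intCast_mul]
  exact map_intCast_injective.eq_iff

/-- Existence of the permutation and cocycle. -/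
theorem exists_act {N p : ℕ} (hp : p.Prime) (g : CongruenceSubgroup.Gamma0 N) (x : HIdx N p) :
    ∃ (y : HIdx N p) (c : CongruenceSubgroup.Gamma0 N),
      hrep p x.1 * iota N g = iota N c * hrep p y.1 := by
  have hg : (N : ℤ) ∣ (g : SL(2, ℤ)) 1 0 :=
    (ZMod.intCast_zmod_eq_zero_iff_dvd _ _).mp (CongruenceSubgroup.Gamma0_mem.mp g.2)
  have hd := det_SL (g : SL(2, ℤ))
  obtain ⟨y, M', hM, hdet, hN, -⟩ := exists_factor (N := N) hp
    (intRep p x.1 * ((g : SL(2, ℤ)) : Matrix (Fin 2) (Fin 2) ℤ)) 1 (by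
      rw [← Matrix.det_fin_two, Matrix.det_mul, det_intRep,
        Matrix.SpecialLinearGroup.det_coe]) (by
      obtain ⟨x, hx⟩ := x
      cases x with
      | none => simpa [Matrix.mul_apply, Fin.sum_univ_two] using hg
      | some j =>
        simp only [intRep_some, Matrix.mul_apply, Fin.sum_univ_two, Matrix.of_apply,
          Matrix.cons_val', Matrix.cons_val_zero, Matrix.cons_val_one, Matrix.cons_val_fin_one,
          zero_mul, zero_add]
        exact dvd_mul_of_dvd_right hg _) (by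
      intro hpN hdvd
      obtain ⟨x, hx⟩ := x
      have hpc : (p : ℤ) ∣ (g : SL(2, ℤ)) 1 0 := (Int.natCast_dvd_natCast.mpr hpN).trans hg
      cases x with
      | none => exact hx hpN rfl
      | some j =>
        simp only [intRep_some, Matrix.mul_apply, Fin.sum_univ_two, Matrix.of_apply,
          Matrix.cons_val', Matrix.cons_val_zero, Matrix.cons_val_one, Matrix.cons_val_fin_one,
          one_mul] at hdvd
        have h1 : (p : ℤ) ∣ (g : SL(2, ℤ)) 0 0 := by
          have := dvd_sub hdvd (dvd_mul_of_dvd_right hpc (j.val : ℤ))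
          simpa using this
        have h2 : (p : ℤ) ∣ 1 := by
          rw [← hd]
          exact dvd_sub (dvd_mul_of_dvd_left h1 _) (dvd_mul_of_dvd_right hpc _)
        have h3 : p ∣ 1 := by exact_mod_cast h2
        exact hp.one_lt.ne' (Nat.dvd_one.mp h3))
  refine ⟨y, ⟨⟨M', by rw [Matrix.det_fin_two]; exact hdet⟩, ?_⟩, ?_⟩
  · exact CongruenceSubgroup.Gamma0_mem.mpr ((ZMod.intCast_zmod_eq_zero_iff_dvd _ _).mpr hN)
  · rw [hrep_mul_iota_eq_iff hp.ne_zero]
    exact hM

/-- The Hecke coset system at `p` for `Γ₀(N)`. -/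
def heckeSys (N p : ℕ) [hp : Fact p.Prime] : CosetSys (iota N) (HIdx N p) where
  rep x := hrep p x.1
  act g x := (exists_act hp.out g x).choose
  coc g x := (exists_act hp.out g x).choose_spec.choose
  spec g x := (exists_act hp.out g x).choose_spec.choose_spec
  inj x y g h := by
    have h1 : hrep p x.1 * iota N 1 = iota N g * hrep p y.1 := by rw [map_one, mul_one, h]
    rw [hrep_mul_iota_eq_iff hp.out.ne_zero] at h1
    refine Subtype.ext (intRep_unique hp.out 1 (fun h2 => ?_)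
      ((g : SL(2, ℤ)) : Matrix (Fin 2) (Fin 2) ℤ) _ _ ?_)
    · have h3 : p ∣ 1 := by exact_mod_cast h2
      exact hp.out.one_lt.ne' (Nat.dvd_one.mp h3)
    · rw [one_smul, ← h1]
      simp
  ι_inj := iota_injective N

@[simp] theorem heckeSys_rep (N p : ℕ) [hp : Fact p.Prime] (x : HIdx N p) :
    (heckeSys N p).rep x = hrep p x.1 := rfl

theorem heckeSys_spec (N p : ℕ) [hp : Fact p.Prime] (g : CongruenceSubgroup.Gamma0 N)
    (x : HIdx N p) :
    intRep p x.1 * ((g : SL(2, ℤ)) : Matrix (Fin 2) (Fin 2) ℤ) =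
      (((heckeSys N p).coc g x : SL(2, ℤ)) : Matrix (Fin 2) (Fin 2) ℤ) *
        intRep p ((heckeSys N p).act g x).1 :=
  (hrep_mul_iota_eq_iff hp.out.ne_zero _ _ _ _).mp ((heckeSys N p).spec g x)

end Fermat.Agent.HeckePar

end
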