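import Fermat.Agent.HeckePar.Cosets
import Fermat.Prelude.Def_ModularCurve_PeriodMap
import Mathlib.Topology.Compactification.OnePoint.ProjectiveLine

/-!
# Hecke cosets: reindexing, commutation, parabolic homomorphisms
-/

set_option autoImplicit false

noncomputable section

open Matrix.SpecialLinearGroup
open scoped MatrixGroups ModularForm

namespace Fermat.Agent.HeckePar

section Reindex

variable {N p : ℕ} [Fact p.Prime]

omit [Fact p.Prime] in
/-- for `p ∣ N` the Hecke cosets are indexed by `ZMod p`. -/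
def hidxEquivOfDvd (h : p ∣ N) : HIdx N p ≃ ZMod p where
  toFun x := x.1.get (Option.ne_none_iff_isSome.mp (x.2 h))
  invFun j := ⟨some j, fun _ => by simp⟩
  left_inv x := Subtype.ext (by simp)
  right_inv j := by simp

omit [Fact p.Prime] in
/-- for `p ∤ N` the Hecke cosets are indexed by `Option (ZMod p)`. -/
def hidxEquivOfNotDvd (h : ¬ p ∣ N) : HIdx N p ≃ Option (ZMod p) where
  toFun x := x.1
  invFun j := ⟨j, fun h' => absurd h' h⟩
  left_inv _ := rfl
  right_inv _ := rfl

theorem sum_range_eq_sum_zmod {M : Type*} [AddCommMonoid M] (F : ℕ → M) :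
    ∑ j ∈ Finset.range p, F j = ∑ x : ZMod p, F x.val := by
  have : NeZero p := ⟨(Fact.out : p.Prime).ne_zero⟩
  refine Finset.sum_nbij' (fun j : ℕ ↦ (j : ZMod p)) (fun x : ZMod p ↦ x.val) (fun _ _ ↦ Finset.mem_univ _)
    (fun x _ ↦ Finset.mem_range.mpr x.val_lt) (fun j hj ↦ ?_) (fun x _ ↦ ?_) (fun j hj ↦ ?_)
  · exact ZMod.val_cast_of_lt (Finset.mem_range.mp hj)
  · exact ZMod.natCast_zmod_val x
  · rw [ZMod.val_cast_of_lt (Finset.mem_range.mp hj)]

theorem heckeU_eq_sum (h : p ∣ N) (k : ℤ) (f : UpperHalfPlane → ℂ) :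
    ModularForm.heckeU k p f = ∑ x : HIdx N p, f ∣[k] hrep p x.1 := by
  rw [ModularForm.heckeU_def, sum_range_eq_sum_zmod,
    ← Equiv.sum_comp (hidxEquivOfDvd h).symm]
  rfl

theorem heckeT_eq_sum (h : ¬ p ∣ N) (k : ℤ) (f : UpperHalfPlane → ℂ) :
    ModularForm.heckeT k p f = ∑ x : HIdx N p, f ∣[k] hrep p x.1 := by
  rw [ModularForm.heckeT_def, sum_range_eq_sum_zmod,
    ← Equiv.sum_comp (hidxEquivOfNotDvd h).symm, Fintype.sum_option, add_comm]
  rfl

end Reindex

section Commute

variable (N p q : ℕ) [hp : Fact p.Prime] [hq : Fact q.Prime]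

theorem val_hrep_mul_hrep (x : Option (ZMod p)) (y : Option (ZMod q)) :
    ((hrep p x * hrep q y : GL (Fin 2) ℝ) : Matrix (Fin 2) (Fin 2) ℝ) =
      (intRep p x * intRep q y).map (Int.cast) := by
  rw [Units.val_mul, val_hrep hp.out.ne_zero, val_hrep hq.out.ne_zero, ← map_intCast_mul]

variable {N p q}

theorem not_dvd_of_ne (hpq : p ≠ q) : ¬ (q : ℤ) ∣ (p : ℤ) := by
  intro h
  have h1 : q ∣ p := by exact_mod_cast h
  exact hpq ((Nat.prime_dvd_prime_iff_eq hq.out hp.out).mp h1).symm

theorem not_dvd_one : ¬ (q : ℤ) ∣ 1 := by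
  intro h
  have h1 : q ∣ 1 := by exact_mod_cast h
  exact hq.out.one_lt.ne' (Nat.dvd_one.mp h1)

theorem comp_inj (hpq : p ≠ q) (x x' : HIdx N p) (y y' : HIdx N q)
    (g : CongruenceSubgroup.Gamma0 N)
    (h : (heckeSys N p).rep x * (heckeSys N q).rep y =
      iota N g * ((heckeSys N p).rep x' * (heckeSys N q).rep y')) : x = x' ∧ y = y' := by
  simp only [heckeSys_rep] at h
  have h1 : intRep p x.1 * intRep q y.1 =
      ((g : SL(2, ℤ)) : Matrix (Fin 2) (Fin 2) ℤ) * (intRep p x'.1 * intRep q y'.1) := by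
    have h2 := congrArg (fun x : GL (Fin 2) ℝ => (x : Matrix (Fin 2) (Fin 2) ℝ)) h
    simp only [val_hrep_mul_hrep, Units.val_mul (iota N g), val_iota, ← map_intCast_mul] at h2
    exact map_intCast_injective h2
  have hy : y = y' := by
    refine Subtype.ext (intRep_unique hq.out p (not_dvd_of_ne hpq)
      ((intRep p x.1).adjugate * (((g : SL(2, ℤ)) : Matrix (Fin 2) (Fin 2) ℤ) * intRep p x'.1))
      _ _ ?_)
    have h3 : (intRep p x.1).adjugate * (intRep p x.1 * intRep q y.1) =
      (intRep p x.1).adjugate * (((g : SL(2, ℤ)) : Matrix (Fin 2) (Fin 2) ℤ) *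
        (intRep p x'.1 * intRep q y'.1)) := congrArg _ h1
    rw [← Matrix.mul_assoc, Matrix.adjugate_mul, det_intRep, Matrix.smul_mul, Matrix.one_mul] at h3
    rw [h3, Matrix.mul_assoc, Matrix.mul_assoc]
  subst hy
  refine ⟨(heckeSys N p).inj x x' g ?_, rfl⟩
  rw [← mul_assoc] at h
  exact mul_right_cancel h

theorem exists_swap (hpq : p ≠ q) (x : HIdx N p) (y : HIdx N q) :
    ∃ (z : HIdx N q × HIdx N p) (c : CongruenceSubgroup.Gamma0 N),
      (heckeSys N p).rep x * (heckeSys N q).rep y =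
        iota N c * ((heckeSys N q).rep z.1 * (heckeSys N p).rep z.2) := by
  obtain ⟨x, hx⟩ := x
  obtain ⟨y, hy⟩ := y
  have hM00 : (intRep p x * intRep q y) 0 0 = (intRep p x) 0 0 * (intRep q y) 0 0 := by
    cases x <;> cases y <;> simp [Matrix.mul_apply, Fin.sum_univ_two]
  have hM10 : (intRep p x * intRep q y) 1 0 = 0 := by
    cases x <;> cases y <;> simp [Matrix.mul_apply, Fin.sum_univ_two]
  have hdet : (intRep p x * intRep q y).det = p * q := by
    rw [Matrix.det_mul, det_intRep, det_intRep]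
  have hx1 : (intRep p x) 0 0 = 1 ∨ (intRep p x) 0 0 = p := by
    cases x <;> simp
  have hy1 : (intRep q y) 0 0 = 1 ∨ (intRep q y) 0 0 = q := by
    cases y <;> simp
  obtain ⟨x', M', hM', hdet', hN', h00'⟩ := exists_factor (N := N) hp.out
    (intRep p x * intRep q y) q (by rw [← Matrix.det_fin_two]; exact hdet)
    (by rw [hM10]; exact dvd_zero _) (by
      intro hpN hdvd
      cases x with
      | none => exact hx hpN rfl
      | some j =>
        rw [hM00] at hdvd
        simp only [intRep_some, Matrix.of_apply, Matrix.cons_val', Matrix.cons_val_zero,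
          Matrix.cons_val_fin_one, one_mul] at hdvd
        rcases hy1 with h | h
        · rw [h] at hdvd; exact not_dvd_one hdvd
        · rw [h] at hdvd; exact not_dvd_of_ne hpq.symm hdvd)
  obtain ⟨y', M'', hM'', hdet'', hN'', -⟩ := exists_factor (N := N) hq.out M' 1
    (by rw [hdet', mul_one]) hN' (by
      intro hqN hdvd
      cases y with
      | none => exact hy hqN rfl
      | some j =>
        have h1 := hdvd.trans h00'
        rw [hM00] at h1
        simp only [intRep_some q, Matrix.of_apply, Matrix.cons_val', Matrix.cons_val_zero,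
          Matrix.cons_val_fin_one, mul_one] at h1
        rcases hx1 with h | h
        · rw [h] at h1; exact not_dvd_one h1
        · rw [h] at h1; exact not_dvd_of_ne hpq h1)
  refine ⟨(y', x'), ⟨⟨M'', by rw [Matrix.det_fin_two]; exact hdet''⟩,
    CongruenceSubgroup.Gamma0_mem.mpr ((ZMod.intCast_zmod_eq_zero_iff_dvd _ _).mpr hN'')⟩, ?_⟩
  rw [← Units.val_inj, heckeSys_rep, heckeSys_rep, heckeSys_rep, heckeSys_rep,
    Units.val_mul (iota N _), val_hrep_mul_hrep, val_hrep_mul_hrep, val_iota, ← map_intCast_mul]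
  congr 1
  rw [hM', hM'', Matrix.mul_assoc]

theorem transfer_comm {B : Type*} [CommGroup B] (φ : CongruenceSubgroup.Gamma0 N →* B) :
    (heckeSys N p).transfer ((heckeSys N q).transfer φ) =
      (heckeSys N q).transfer ((heckeSys N p).transfer φ) := by
  by_cases hpq : p = q
  · subst hpq; rfl
  · rw [← CosetSys.transfer_comp_sys _ _ (comp_inj (N := N) hpq),
      ← CosetSys.transfer_comp_sys _ _ (comp_inj (N := N) (Ne.symm hpq))]
    symm
    let F : HIdx N p × HIdx N q → HIdx N q × HIdx N p := fun z => (exists_swap hpq z.1 z.2).choose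
    let κ : HIdx N p × HIdx N q → CongruenceSubgroup.Gamma0 N := fun z =>
      (exists_swap hpq z.1 z.2).choose_spec.choose
    have hF : ∀ z, (heckeSys N p).rep z.1 * (heckeSys N q).rep z.2 =
        iota N (κ z) * ((heckeSys N q).rep (F z).1 * (heckeSys N p).rep (F z).2) := fun z =>
      (exists_swap hpq z.1 z.2).choose_spec.choose_spec
    have hinj : Function.Injective F := by
      intro z w hzw
      have h1 := hF z
      have h2 := hF w
      rw [hzw] at h1
      have h3 : (heckeSys N p).rep z.1 * (heckeSys N q).rep z.2 =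
          iota N (κ z * (κ w)⁻¹) * ((heckeSys N p).rep w.1 * (heckeSys N q).rep w.2) := by
        rw [h1, h2, map_mul, map_inv, mul_assoc (iota N (κ z)), inv_mul_cancel_left]
      obtain ⟨h4, h5⟩ := comp_inj hpq _ _ _ _ _ h3
      exact Prod.ext h4 h5
    have hbij : Function.Bijective F :=
      (Fintype.bijective_iff_injective_and_card F).mpr ⟨hinj, by
        rw [Fintype.card_prod, Fintype.card_prod, mul_comm]⟩
    exact CosetSys.transfer_eq_of_equiv _ _ (Equiv.ofBijective F hbij) κ hF φ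

theorem addTransfer_comm {A : Type*} [AddCommGroup A]
    (φ : Additive (CongruenceSubgroup.Gamma0 N) →+ A) :
    (heckeSys N p).addTransfer ((heckeSys N q).addTransfer φ) =
      (heckeSys N q).addTransfer ((heckeSys N p).addTransfer φ) := by
  refine AddMonoidHom.ext fun g => ?_
  have h1 := DFunLike.congr_fun (transfer_comm (N := N) (p := p) (q := q)
    (AddMonoidHom.toMultiplicativeRight φ)) (Additive.toMul g)
  have h2 : ∀ (r : ℕ) [Fact r.Prime] (ψ : Additive (CongruenceSubgroup.Gamma0 N) →+ A),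
      (heckeSys N r).transfer (AddMonoidHom.toMultiplicativeRight ψ) =
        AddMonoidHom.toMultiplicativeRight ((heckeSys N r).addTransfer ψ) := by
    intro r _ ψ
    refine MonoidHom.ext fun g => ?_
    rw [CosetSys.addTransfer_toMul]
    rfl
  rw [h2, h2, h2, h2] at h1
  exact h1

end Commute

section Parabolic

open ModularCurve.Period

theorem sq_eq (g : SL(2, ℤ)) : (g : Matrix (Fin 2) (Fin 2) ℤ) * (g : Matrix (Fin 2) (Fin 2) ℤ) =
    (g : Matrix (Fin 2) (Fin 2) ℤ).trace • (g : Matrix (Fin 2) (Fin 2) ℤ) - 1 := by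
  have hd : (g : Matrix (Fin 2) (Fin 2) ℤ) 0 0 * (g : Matrix (Fin 2) (Fin 2) ℤ) 1 1 -
      (g : Matrix (Fin 2) (Fin 2) ℤ) 0 1 * (g : Matrix (Fin 2) (Fin 2) ℤ) 1 0 = 1 := det_SL g
  generalize (g : Matrix (Fin 2) (Fin 2) ℤ) = M at hd
  ext i j
  fin_cases i <;> fin_cases j <;>
    simp only [Fin.zero_eta, Fin.mk_one, Matrix.mul_apply, Fin.sum_univ_two, Matrix.trace_fin_two,
      Matrix.sub_apply, Matrix.smul_apply, smul_eq_mul, Matrix.one_apply_eq, ne_eq, zero_ne_one,
      one_ne_zero, not_false_eq_true, Matrix.one_apply_ne]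
  · linear_combination (-1 : ℤ) * hd
  · ring
  · ring
  · linear_combination (-1 : ℤ) * hd

theorem trace_pow_of_parabolic (g : SL(2, ℤ)) (ε : ℤ)
    (ht : (g : Matrix (Fin 2) (Fin 2) ℤ).trace = 2 * ε) (hε : ε ^ 2 = 1) (n : ℕ) :
    ((g ^ n : SL(2, ℤ)) : Matrix (Fin 2) (Fin 2) ℤ).trace = 2 * ε ^ n := by
  induction n using Nat.strong_induction_on with
  | _ n ih =>
    match n, ih with
    | 0, _ => simp
    | 1, _ => simp [ht]
    | (n + 2), ih =>
      have h1 := ih n (by omega)
      have h2 := ih (n + 1) (by omega)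
      have h3 : ((g ^ (n + 2) : SL(2, ℤ)) : Matrix (Fin 2) (Fin 2) ℤ) =
          (2 * ε) • ((g ^ (n + 1) : SL(2, ℤ)) : Matrix (Fin 2) (Fin 2) ℤ) -
            ((g ^ n : SL(2, ℤ)) : Matrix (Fin 2) (Fin 2) ℤ) := by
        rw [pow_succ, pow_succ, mul_assoc, Matrix.SpecialLinearGroup.coe_mul (g ^ n) (g * g),
          Matrix.SpecialLinearGroup.coe_mul g g, sq_eq, ht, Matrix.mul_sub, Matrix.mul_one,
          Matrix.mul_smul, Matrix.SpecialLinearGroup.coe_mul (g ^ n) g]
      rw [h3, Matrix.trace_sub, Matrix.trace_smul, h1, h2, smul_eq_mul]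
      linear_combination (2 * ε ^ n) * hε

theorem trace_pow_sq (g : SL(2, ℤ)) (h : (g : Matrix (Fin 2) (Fin 2) ℤ).trace ^ 2 = 4) (n : ℕ) :
    ((g ^ n : SL(2, ℤ)) : Matrix (Fin 2) (Fin 2) ℤ).trace ^ 2 = 4 := by
  have h1 : (g : Matrix (Fin 2) (Fin 2) ℤ).trace = 2 ∨
      (g : Matrix (Fin 2) (Fin 2) ℤ).trace = -2 := by
    have : ((g : Matrix (Fin 2) (Fin 2) ℤ).trace - 2) *
        ((g : Matrix (Fin 2) (Fin 2) ℤ).trace + 2) = 0 := by linear_combination h
    rcases mul_eq_zero.mp this with h | h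
    · left; linarith
    · right; linarith
  rcases h1 with h1 | h1
  · rw [trace_pow_of_parabolic g 1 (by rw [h1]; norm_num) (by norm_num)]
    norm_num
  · rw [trace_pow_of_parabolic g (-1) (by rw [h1]; norm_num) (by norm_num), mul_pow, ← pow_mul,
      mul_comm n 2, pow_mul]
    norm_num

theorem trace_coc (N p : ℕ) [hp : Fact p.Prime] (g : CongruenceSubgroup.Gamma0 N) (x : HIdx N p)
    (h : (heckeSys N p).act g x = x) :
    (((heckeSys N p).coc g x : SL(2, ℤ)) : Matrix (Fin 2) (Fin 2) ℤ).trace =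
      ((g : SL(2, ℤ)) : Matrix (Fin 2) (Fin 2) ℤ).trace := by
  have h1 := heckeSys_spec N p g x
  rw [h] at h1
  have h2 : (intRep p x.1 * ((g : SL(2, ℤ)) : Matrix (Fin 2) (Fin 2) ℤ) *
      (intRep p x.1).adjugate).trace =
      ((((heckeSys N p).coc g x : SL(2, ℤ)) : Matrix (Fin 2) (Fin 2) ℤ) * intRep p x.1 *
      (intRep p x.1).adjugate).trace := by rw [h1]
  rw [Matrix.mul_assoc _ (intRep p x.1) _, Matrix.mul_adjugate, Matrix.mul_smul, Matrix.mul_one,
    Matrix.trace_smul, Matrix.mul_assoc, Matrix.trace_mul_comm, Matrix.mul_assoc,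
    Matrix.adjugate_mul, Matrix.mul_smul, Matrix.mul_one, Matrix.trace_smul, det_intRep] at h2
  have hp0 : (p : ℤ) ≠ 0 := by exact_mod_cast hp.out.ne_zero
  exact (mul_left_cancel₀ hp0 (by simpa using h2)).symm

/-- The Hecke operators preserve parabolic homomorphisms with torsion-free target. -/
theorem isParabolicHom_addTransfer {N p : ℕ} [hp : Fact p.Prime] {A : Type*} [AddCommGroup A]
    [IsAddTorsionFree A] {φ : Additive (CongruenceSubgroup.Gamma0 N) →+ A}
    (hφ : IsParabolicHom (CongruenceSubgroup.Gamma0 N) φ) :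
    IsParabolicHom (CongruenceSubgroup.Gamma0 N) ((heckeSys N p).addTransfer φ) := by
  intro g hg
  refine (heckeSys N p).addTransfer_eq_zero φ g fun x n _ hx => hφ _ ?_
  rw [trace_coc N p _ x hx]
  exact trace_pow_sq _ hg n

end Parabolic

end Fermat.Agent.HeckePar

end
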