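import Fermat.Agent.HeckePar.Periods
import Fermat.Agent.S22.Algebra

/-!
# The faithfulness input: saturation of the Hecke algebra acting on integral parabolic classes
-/

set_option autoImplicit false

noncomputable section

open CongruenceSubgroup Matrix.SpecialLinearGroup
open scoped MatrixGroups ModularForm

namespace Fermat.Agent.HeckePar

open Fermat.Agent.S21per Fermat.Agent.GalRep ModularCurve ModularCurve.Period

section Op

variable (N : ℕ) (S : Set ℕ) (A : Type*) [AddCommGroup A]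

/-- The Hecke operator at a prime on `Hom(Γ₀(N), A)`. -/
def opPrime (ℓ : Nat.Primes) : Module.End ℤ (Additive (Gamma0 N) →+ A) :=
  haveI : Fact (ℓ : ℕ).Prime := ⟨ℓ.2⟩
  (heckeSys N (ℓ : ℕ)).addTransfer.toIntLinearMap

/-- The Hecke operator at a prime outside `S` on `Hom(Γ₀(N), A)`. -/
def opHom (ℓ : {ℓ : Nat.Primes // (ℓ : ℕ) ∉ S}) : Module.End ℤ (Additive (Gamma0 N) →+ A) :=
  opPrime N A ℓ.1

variable {N A}

theorem opPrime_apply (ℓ : Nat.Primes) (φ : Additive (Gamma0 N) →+ A) :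
    opPrime N A ℓ φ =
      (haveI : Fact (ℓ : ℕ).Prime := ⟨ℓ.2⟩; (heckeSys N (ℓ : ℕ)).addTransfer φ) := rfl

theorem opPrime_commute (ℓ ℓ' : Nat.Primes) :
    Commute (opPrime N A ℓ) (opPrime N A ℓ') := by
  refine LinearMap.ext fun φ => ?_
  have : Fact (ℓ : ℕ).Prime := ⟨ℓ.2⟩
  have : Fact (ℓ' : ℕ).Prime := ⟨ℓ'.2⟩
  exact addTransfer_comm φ

theorem opHom_commute (ℓ ℓ' : {ℓ : Nat.Primes // (ℓ : ℕ) ∉ S}) :
    Commute (opHom N S A ℓ) (opHom N S A ℓ') := opPrime_commute _ _

variable (N A)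

/-- The action of Hecke polynomials on `Hom(Γ₀(N), A)`. -/
def parEval : HeckeAlgS S →ₐ[ℤ] Module.End ℤ (Additive (Gamma0 N) →+ A) :=
  commEval (opHom N S A) (opHom_commute S)

variable {N A S}

theorem parEval_X (ℓ : {ℓ : Nat.Primes // (ℓ : ℕ) ∉ S}) (φ : Additive (Gamma0 N) →+ A) :
    parEval N S A (MvPolynomial.X ℓ) φ = opHom N S A ℓ φ := by
  rw [parEval, commEval_X]

/-- naturality in the coefficients -/
theorem parEval_comp {B : Type*} [AddCommGroup B] (ψ : A →+ B) (t : HeckeAlgS S)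
    (φ : Additive (Gamma0 N) →+ A) :
    parEval N S B t (ψ.comp φ) = ψ.comp (parEval N S A t φ) := by
  have h := commEval_natural (opHom N S A) (opHom_commute S) (opHom N S B) (opHom_commute S)
    (f := AddMonoidHom.mk' (fun φ : Additive (Gamma0 N) →+ A => ψ.comp φ)
      (fun a b => by ext x; simp)) (fun ℓ x => by
      have : Fact (ℓ.1 : ℕ).Prime := ⟨ℓ.1.2⟩
      exact ((heckeSys N (ℓ.1 : ℕ)).addTransfer_comp ψ x).symm) t φ
  exact h.symm

theorem isParabolicHom_opHom [IsAddTorsionFree A] (ℓ : {ℓ : Nat.Primes // (ℓ : ℕ) ∉ S})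
    {φ : Additive (Gamma0 N) →+ A} (hφ : IsParabolicHom (Gamma0 N) φ) :
    IsParabolicHom (Gamma0 N) (opHom N S A ℓ φ) := by
  have : Fact (ℓ.1 : ℕ).Prime := ⟨ℓ.1.2⟩
  exact isParabolicHom_addTransfer hφ

theorem isParabolicHom_parEval [IsAddTorsionFree A] (t : HeckeAlgS S)
    {φ : Additive (Gamma0 N) →+ A} (hφ : IsParabolicHom (Gamma0 N) φ) :
    IsParabolicHom (Gamma0 N) (parEval N S A t φ) :=
  commEval_mem (opHom N S A) (opHom_commute S) (parabolicHoms ℤ (Gamma0 N) A).toAddSubgroup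
    (fun ℓ _ hx => isParabolicHom_opHom ℓ hx) t φ hφ

end Op

section Lattice

variable (N : ℕ) [NeZero N]

instance finite_hom_int : Module.Finite ℤ (Additive (Gamma0 N) →+ ℤ) := by
  have hfg : Group.FG (Gamma0 N) := Fermat.Agent.S22alg.fg_Gamma0 N
  have hfg' : AddGroup.FG (Additive (Gamma0 N)) := inferInstance
  obtain ⟨s, hs⟩ := hfg'.out
  let ev : (Additive (Gamma0 N) →+ ℤ) →ₗ[ℤ] (s → ℤ) :=
    { toFun := fun φ x => φ x
      map_add' := fun _ _ => rfl
      map_smul' := fun _ _ => rfl }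
  refine Module.Finite.of_injective ev fun φ ψ h => ?_
  refine AddMonoidHom.eq_of_eqOn_dense hs fun x hx => ?_
  exact congrFun h ⟨x, hx⟩

instance free_par : Module.Free ℤ (parabolicHoms ℤ (Gamma0 N) ℤ) := by
  have : IsAddTorsionFree (Additive (Gamma0 N) →+ ℤ) :=
    Function.Injective.isAddTorsionFree (AddMonoidHom.coeFn _ _) DFunLike.coe_injective
  have : IsAddTorsionFree (parabolicHoms ℤ (Gamma0 N) ℤ) :=
    Function.Injective.isAddTorsionFree (parabolicHoms ℤ (Gamma0 N) ℤ).subtype.toAddMonoidHom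
      Subtype.val_injective
  infer_instance

variable (S : Set ℕ)

/-- The Hecke operators on the lattice of integral parabolic homomorphisms. -/
def opLat (ℓ : {ℓ : Nat.Primes // (ℓ : ℕ) ∉ S}) : Module.End ℤ (parabolicHoms ℤ (Gamma0 N) ℤ) :=
  (opHom N S ℤ ℓ).restrict fun _ hφ => isParabolicHom_opHom ℓ hφ

omit [NeZero N] in
theorem opLat_commute (ℓ ℓ' : {ℓ : Nat.Primes // (ℓ : ℕ) ∉ S}) :
    Commute (opLat N S ℓ) (opLat N S ℓ') := by
  refine LinearMap.ext fun φ => Subtype.ext ?_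
  exact LinearMap.congr_fun (opHom_commute (A := ℤ) (N := N) S ℓ ℓ') (φ : Additive (Gamma0 N) →+ ℤ)

omit [NeZero N] in
theorem coe_commEval_opLat (t : HeckeAlgS S) (φ : parabolicHoms ℤ (Gamma0 N) ℤ) :
    ((commEval (opLat N S) (opLat_commute N S) t φ : parabolicHoms ℤ (Gamma0 N) ℤ) :
      Additive (Gamma0 N) →+ ℤ) = parEval N S ℤ t φ :=
  commEval_natural (opLat N S) (opLat_commute N S) (opHom N S ℤ) (opHom_commute S)
    (f := (parabolicHoms ℤ (Gamma0 N) ℤ).subtype.toAddMonoidHom) (fun _ _ => rfl) t φ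

variable {N S}

/-- equivariance of the period map for Hecke polynomials -/
theorem periodLin_evS (t : HeckeAlgS S) (f : CuspForm (Gamma0 N) 2) :
    periodLin N ((evS N S t : Module.End ℂ (CuspForm (Gamma0 N) 2)) f) =
      parEval N S ℂ t (periodLin N f) := by
  induction t using MvPolynomial.induction_on generalizing f with
  | C a =>
    rw [← MvPolynomial.algebraMap_eq, AlgHom.commutes, AlgHom.commutes, eq_intCast, eq_intCast,
      Module.End.intCast_apply]
    have h1 : (((a : ℤ) : CuspForm.heckeAlgebra N 2 S) : Module.End ℂ (CuspForm (Gamma0 N) 2)) =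
      ((a : ℤ) : Module.End ℂ (CuspForm (Gamma0 N) 2)) := by push_cast; rfl
    rw [h1, Module.End.intCast_apply, map_zsmul]
  | add p q hp hq =>
    rw [map_add, map_add, LinearMap.add_apply, Subalgebra.coe_add, LinearMap.add_apply, map_add,
      hp, hq]
  | mul_X p ℓ hp =>
    rw [map_mul, map_mul, Subalgebra.coe_mul, Module.End.mul_apply, Module.End.mul_apply, hp,
      parEval_X]
    congr 1
    have : Fact (ℓ.1 : ℕ).Prime := ⟨ℓ.1.2⟩
    rw [evS, MvPolynomial.aeval_X, genS]
    split_ifs with h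
    · rw [CuspForm.heckeAlgebra.coe_U]
      exact periodLin_heckeULin h f
    · rw [CuspForm.heckeAlgebra.coe_T]
      exact periodLin_heckeTLin h f

omit [NeZero N] in
/-- Hecke polynomials killing the integral parabolic classes kill the complex ones. -/
theorem parEval_eq_zero_of_int (hN : N ≠ 0) (t : HeckeAlgS S)
    (h : ∀ φ : Additive (Gamma0 N) →+ ℤ, IsParabolicHom (Gamma0 N) φ → parEval N S ℤ t φ = 0)
    (φ : Additive (Gamma0 N) →+ ℂ) (hφ : IsParabolicHom (Gamma0 N) φ) :
    parEval N S ℂ t φ = 0 := by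
  have : NeZero N := ⟨hN⟩
  have hfg : Group.FG (Gamma0 N) := Fermat.Agent.S22alg.fg_Gamma0 N
  have hfg' : AddGroup.FG (Additive (Gamma0 N)) := inferInstance
  -- factor through the abelianization to have a commutative source
  let M := Additive (Abelianization (Gamma0 N))
  have hfgA : Group.FG (Abelianization (Gamma0 N)) :=
    Group.fg_of_surjective (f := Abelianization.of) (Quotient.mk_surjective)
  have hfgM : AddGroup.FG M := GroupFG.iff_add_fg.mp hfgA
  let q : Additive (Gamma0 N) →+ M := MonoidHom.toAdditive Abelianization.of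
  let φ' : M →+ ℂ := MonoidHom.toAdditiveLeft
    (Abelianization.lift (AddMonoidHom.toMultiplicativeRight φ))
  have hφ' : φ'.comp q = φ := by
    ext x
    rfl
  obtain ⟨n, c, l, h1, h2⟩ := exists_integral_decomposition φ'
  have h3 : φ = ∑ i, ((zmultiplesHom ℂ) (c i)).comp ((l i).comp q) := by
    refine AddMonoidHom.ext fun x => ?_
    rw [← hφ', AddMonoidHom.comp_apply, h1, AddMonoidHom.finsetSum_apply]
    rfl
  have h4 : ∀ i, IsParabolicHom (Gamma0 N) ((l i).comp q) := by
    intro i γ hγ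
    have h5 := hφ γ hγ
    rw [← hφ'] at h5
    exact h2 _ h5 i
  rw [h3, map_sum]
  refine Finset.sum_eq_zero fun i _ => ?_
  rw [parEval_comp, h _ (h4 i)]
  ext x
  simp

/-- **Faithfulness.** If a Hecke polynomial maps the lattice of integral parabolic classes into its
`p^m`-multiples, then its image in the Hecke algebra of cusp forms is divisible by `p^(m-c)`. -/
theorem exists_faithful (N : ℕ) [NeZero N] (S : Set ℕ) (p : ℕ) (hp : p.Prime) :
    ∃ c : ℕ, ∀ (m : ℕ) (t : HeckeAlgS S),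
      (∀ φ : Additive (Gamma0 N) →+ ℤ, IsParabolicHom (Gamma0 N) φ →
        ∃ ψ : Additive (Gamma0 N) →+ ℤ, parEval N S ℤ t φ = ((p : ℤ) ^ m) • ψ) →
      ∃ t' : HeckeAlgS S, evS N S t = ((p : CuspForm.heckeAlgebra N 2 S)) ^ (m - c) * evS N S t' := by
  have hfin : Module.Finite ℤ (parabolicHoms ℤ (Gamma0 N) ℤ) :=
    Module.Finite.of_injective (parabolicHoms ℤ (Gamma0 N) ℤ).subtype Subtype.val_injective
  obtain ⟨c, hc⟩ := exists_saturation (opLat N S) (opLat_commute N S) p hp
  refine ⟨c, fun m t ht => ?_⟩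
  obtain ⟨t', ht'⟩ := hc m t (by
    rintro ⟨φ, hφ⟩
    obtain ⟨ψ, hψ⟩ := ht φ hφ
    have hψpar : IsParabolicHom (Gamma0 N) ψ := by
      intro γ hγ
      have h1 := isParabolicHom_parEval (S := S) t hφ γ hγ
      rw [hψ] at h1
      have h2 : ((p : ℤ) ^ m) * ψ (Additive.ofMul γ) = 0 := h1
      rcases mul_eq_zero.mp h2 with h3 | h3
      · exact absurd h3 (pow_ne_zero _ (by exact_mod_cast hp.ne_zero))
      · exact h3
    exact ⟨⟨ψ, hψpar⟩, Subtype.ext (by rw [coe_commEval_opLat]; exact hψ)⟩)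
  refine ⟨t', ?_⟩
  have key : ∀ φ : Additive (Gamma0 N) →+ ℤ, IsParabolicHom (Gamma0 N) φ →
      parEval N S ℤ (t - (p : HeckeAlgS S) ^ (m - c) * t') φ = 0 := by
    intro φ hφ
    have h1 := coe_commEval_opLat N S (t - (p : HeckeAlgS S) ^ (m - c) * t') ⟨φ, hφ⟩
    rw [← h1, map_sub, ht', sub_self]
    rfl
  have h2 : evS N S (t - (p : HeckeAlgS S) ^ (m - c) * t') = 0 := by
    apply Subtype.ext
    refine LinearMap.ext fun f => ?_
    apply periodLin_injective (N := N)
    rw [periodLin_evS, parEval_eq_zero_of_int (NeZero.ne N) _ key _ (isParabolicHom_periodLin f)]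
    exact (map_zero (periodLin N)).symm
  rw [map_sub, sub_eq_zero, map_mul, map_pow, map_natCast] at h2
  exact h2

end Lattice

end Fermat.Agent.HeckePar

end
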