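import Fermat.Agent.HeckePar.Faithful

/-!
# The `faithful` field of `ESInput` from equivariant maps on integral parabolic classes
-/

set_option autoImplicit false

noncomputable section

open CongruenceSubgroup
open scoped MatrixGroups ModularForm

namespace Fermat.Agent.HeckePar

open Fermat.Agent.S21per Fermat.Agent.GalRep ModularCurve ModularCurve.Period

/-- If for every `m` there is an additive map `j` from integral parabolic classes to a Hecke
module `J`, killed by `p^m`, with kernel contained in the `p^m`-multiples and commuting with the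
Hecke operators outside `S`, then the Hecke action on `J[p^∞]` is faithful in the sense of
`ESInput`. -/
theorem faithful_of_embedding (N p : ℕ) [NeZero N] (hp : p.Prime) (S : Set ℕ)
    (J : Type*) [AddCommGroup J] [Module HeckeAlg J]
    (hj : ∀ m : ℕ, ∃ j : parabolicHoms ℤ (Gamma0 N) ℤ →+ J,
      (∀ φ, p ^ m • j φ = 0) ∧
      (∀ φ, j φ = 0 → ∃ ψ : Additive (Gamma0 N) →+ ℤ,
        (φ : Additive (Gamma0 N) →+ ℤ) = ((p : ℤ) ^ m) • ψ) ∧
      (∀ (ℓ : {ℓ : Nat.Primes // (ℓ : ℕ) ∉ S}) φ, heckeGen ℓ.1 • j φ = j (opLat N S ℓ φ))) :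
    ∀ n : ℕ, ∃ m : ℕ, ∀ t : HeckeAlgS S,
      (∀ x : J, p ^ m • x = 0 → inclS S t • x = 0) →
        evS N S t ∈ Ideal.span {((p : CuspForm.heckeAlgebra N 2 S)) ^ n} := by
  obtain ⟨c, hc⟩ := exists_faithful N S p hp
  intro n
  refine ⟨n + c, fun t ht => ?_⟩
  obtain ⟨j, hj1, hj2, hj3⟩ := hj (n + c)
  have key : ∀ (t : HeckeAlgS S) (φ : parabolicHoms ℤ (Gamma0 N) ℤ),
      inclS S t • j φ = j (commEval (opLat N S) (opLat_commute N S) t φ) := by
    intro t
    induction t using MvPolynomial.induction_on with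
    | C a =>
      intro φ
      rw [← MvPolynomial.algebraMap_eq, AlgHom.commutes, AlgHom.commutes, eq_intCast, eq_intCast,
        Module.End.intCast_apply, map_zsmul, Int.cast_smul_eq_zsmul]
    | add p q hp hq =>
      intro φ
      rw [map_add, add_smul, map_add, LinearMap.add_apply, map_add, hp, hq]
    | mul_X p ℓ hp =>
      intro φ
      rw [map_mul, map_mul, commEval_X, Module.End.mul_apply, ← hp, mul_smul]
      congr 1
      have h1 : inclS S (MvPolynomial.X ℓ) = heckeGen ℓ.1 := by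
        rw [inclS, MvPolynomial.rename_X]; rfl
      rw [h1]
      exact hj3 ℓ φ
  obtain ⟨t', ht'⟩ := hc (n + c) t (by
    intro φ hφ
    have h1 := key t ⟨φ, hφ⟩
    rw [ht _ (hj1 ⟨φ, hφ⟩)] at h1
    obtain ⟨ψ, hψ⟩ := hj2 _ h1.symm
    exact ⟨ψ, by rw [← hψ, coe_commEval_opLat]⟩)
  rw [ht', Nat.add_sub_cancel]
  exact Ideal.mul_mem_right _ _ (Ideal.subset_span rfl)

end Fermat.Agent.HeckePar

end
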