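import Mathlib.Algebra.MvPolynomial.Basic
import Mathlib.Algebra.MvPolynomial.Eval
import Mathlib.Algebra.MvPolynomial.CommRing
import Mathlib.Algebra.Algebra.Subalgebra.Lattice
import Mathlib.Algebra.Module.Torsion.Basic
import Mathlib.LinearAlgebra.FreeModule.PID
import Mathlib.LinearAlgebra.FreeModule.Finite.Matrix
import Mathlib.RingTheory.Finiteness.Basic
import Mathlib.Algebra.Module.PID

/-!
# Evaluation of polynomials at commuting operators
-/

set_option autoImplicit false

noncomputable section

namespace Fermat.Agent.HeckePar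

section CommEval

variable {ι : Type*} {A : Type*} [Ring A]

theorem isMulComm_adjoin (op : ι → A) (h : ∀ i j, Commute (op i) (op j)) :
    IsMulCommutative (Algebra.adjoin ℤ (Set.range op)) :=
  Algebra.isMulCommutative_adjoin ℤ (by
    rintro _ ⟨i, rfl⟩ _ ⟨j, rfl⟩
    exact h i j)

open scoped IsMulCommutative in
/-- auxiliary: evaluation into the commutative subalgebra. -/
def commEvalAux (op : ι → A) (h : ∀ i j, Commute (op i) (op j)) :
    MvPolynomial ι ℤ →ₐ[ℤ] (Algebra.adjoin ℤ (Set.range op) : Subalgebra ℤ A) :=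
  haveI := isMulComm_adjoin op h
  MvPolynomial.aeval fun i =>
    (⟨op i, Algebra.subset_adjoin (Set.mem_range_self i)⟩ : Algebra.adjoin ℤ (Set.range op))

/-- Evaluation of polynomials at pairwise commuting elements of a ring. -/
def commEval (op : ι → A) (h : ∀ i j, Commute (op i) (op j)) : MvPolynomial ι ℤ →ₐ[ℤ] A :=
  (Algebra.adjoin ℤ (Set.range op)).val.comp (commEvalAux op h)

open scoped IsMulCommutative in
@[simp] theorem commEval_X (op : ι → A) (h : ∀ i j, Commute (op i) (op j)) (i : ι) :
    commEval op h (MvPolynomial.X i) = op i := by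
  have := isMulComm_adjoin op h
  show ((commEvalAux op h (MvPolynomial.X i) : Algebra.adjoin ℤ (Set.range op)) : A) = op i
  rw [commEvalAux, MvPolynomial.aeval_X]

theorem commEval_range (op : ι → A) (h : ∀ i j, Commute (op i) (op j)) :
    (commEval op h).range = Algebra.adjoin ℤ (Set.range op) := by
  apply le_antisymm
  · rintro _ ⟨t, rfl⟩
    exact (commEvalAux op h t).2
  · rw [Algebra.adjoin_le_iff]
    rintro _ ⟨i, rfl⟩
    exact ⟨MvPolynomial.X i, commEval_X op h i⟩

end CommEval

section Natural

variable {ι : Type*} {M M' : Type*} [AddCommGroup M] [AddCommGroup M']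

/-- naturality of evaluation on modules. -/
theorem commEval_natural (op : ι → Module.End ℤ M) (h : ∀ i j, Commute (op i) (op j))
    (op' : ι → Module.End ℤ M') (h' : ∀ i j, Commute (op' i) (op' j)) (f : M →+ M')
    (hf : ∀ i x, f (op i x) = op' i (f x)) (t : MvPolynomial ι ℤ) (x : M) :
    f (commEval op h t x) = commEval op' h' t (f x) := by
  induction t using MvPolynomial.induction_on generalizing x with
  | C a =>
    rw [← MvPolynomial.algebraMap_eq, AlgHom.commutes, AlgHom.commutes, eq_intCast, eq_intCast,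
      Module.End.intCast_apply, Module.End.intCast_apply, map_zsmul]
  | add p q hp hq => rw [map_add, map_add, LinearMap.add_apply, LinearMap.add_apply, map_add, hp, hq]
  | mul_X p i hp =>
    rw [map_mul, map_mul, commEval_X, commEval_X, Module.End.mul_apply, Module.End.mul_apply, hp,
      hf]

/-- a submodule stable under the operators is stable under all polynomials. -/
theorem commEval_mem (op : ι → Module.End ℤ M) (h : ∀ i j, Commute (op i) (op j))
    (L : AddSubgroup M) (hL : ∀ i, ∀ x ∈ L, op i x ∈ L) (t : MvPolynomial ι ℤ) (x : M)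
    (hx : x ∈ L) : commEval op h t x ∈ L := by
  induction t using MvPolynomial.induction_on generalizing x with
  | C a =>
    rw [← MvPolynomial.algebraMap_eq, AlgHom.commutes, eq_intCast, Module.End.intCast_apply]
    exact L.zsmul_mem hx a
  | add p q hp hq => rw [map_add, LinearMap.add_apply]; exact L.add_mem (hp x hx) (hq x hx)
  | mul_X p i hp =>
    rw [map_mul, commEval_X, Module.End.mul_apply]
    exact hp _ (hL i x hx)

end Natural

section Saturation

/-- If `s` is torsion modulo `B` in a f.g. abelian group then the `p`-primary part of its order is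
bounded. -/
theorem exists_saturation_exponent {E : Type*} [AddCommGroup E] [Module.Finite ℤ E]
    (B : Submodule ℤ E) (p : ℕ) (hp : p.Prime) :
    ∃ c : ℕ, ∀ (m : ℕ) (s : E), ((p : ℤ) ^ m) • s ∈ B → ((p : ℤ) ^ c) • s ∈ B := by
  -- the ascending chain `{s | p^m s ∈ B}` stabilises
  let f : ℕ →o Submodule ℤ E :=
    { toFun := fun m => B.comap (LinearMap.lsmul ℤ E ((p : ℤ) ^ m))
      monotone' := by
        intro a b hab s hs
        simp only [Submodule.mem_comap, LinearMap.lsmul_apply] at hs ⊢
        rw [← Nat.sub_add_cancel hab, pow_add, mul_smul]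
        exact B.smul_mem _ hs }
  have : IsNoetherian ℤ E := isNoetherian_of_isNoetherianRing_of_finite ℤ E
  obtain ⟨c, hc⟩ := monotone_stabilizes_iff_noetherian.mpr (inferInstance : IsNoetherian ℤ E) f
  refine ⟨c, fun m s hs => ?_⟩
  have h1 : s ∈ f (max c m) := by
    have h0 : f m ≤ f (max c m) := f.monotone (le_max_right _ _)
    have h2 : s ∈ f m := hs
    exact h0 h2
  rw [← hc (max c m) (le_max_left _ _)] at h1
  exact h1

variable {ι : Type*} {Λ : Type*} [AddCommGroup Λ] [Module.Finite ℤ Λ] [Module.Free ℤ Λ]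

/-- Saturation: if `t` maps `Λ` into `p^m Λ` then `t` agrees on `Λ` with `p^(m-c) t'`. -/
theorem exists_saturation (op : ι → Module.End ℤ Λ) (h : ∀ i j, Commute (op i) (op j))
    (p : ℕ) (hp : p.Prime) :
    ∃ c : ℕ, ∀ (m : ℕ) (t : MvPolynomial ι ℤ),
      (∀ x : Λ, ∃ y : Λ, commEval op h t x = ((p : ℤ) ^ m) • y) →
      ∃ t' : MvPolynomial ι ℤ, commEval op h t = commEval op h ((p : MvPolynomial ι ℤ) ^ (m - c) * t') := by
  obtain ⟨c, hc⟩ := exists_saturation_exponent (E := Module.End ℤ Λ)
    (LinearMap.range (commEval op h).toLinearMap) p hp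
  refine ⟨c, fun m t ht => ?_⟩
  rcases le_or_gt m c with hmc | hmc
  · exact ⟨t, by rw [Nat.sub_eq_zero_of_le hmc, pow_zero, one_mul]⟩
  have hp0 : ((p : ℤ) ^ m) ≠ 0 := pow_ne_zero _ (by exact_mod_cast hp.ne_zero)
  choose g hg using ht
  have hinj : Function.Injective (fun y : Λ => ((p : ℤ) ^ m) • y) := smul_right_injective Λ hp0
  let s : Module.End ℤ Λ :=
    { toFun := g
      map_add' := fun x y => hinj (by
        show ((p : ℤ) ^ m) • g (x + y) = ((p : ℤ) ^ m) • (g x + g y)
        rw [smul_add, ← hg, ← hg, ← hg, map_add])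
      map_smul' := fun a x => hinj (by
        show ((p : ℤ) ^ m) • g (a • x) = ((p : ℤ) ^ m) • (a • g x)
        rw [smul_comm, ← hg, ← hg, map_smul]) }
  have hs : commEval op h t = ((p : ℤ) ^ m) • s := LinearMap.ext fun x => hg x
  obtain ⟨t', ht'⟩ := hc m s (by rw [← hs]; exact ⟨t, rfl⟩)
  refine ⟨t', ?_⟩
  have ht'' : commEval op h t' = ((p : ℤ) ^ c) • s := ht'
  have hpc : (commEval op h) ((p : MvPolynomial ι ℤ) ^ (m - c)) = algebraMap ℤ _ ((p : ℤ) ^ (m - c)) := by
    rw [map_pow, map_natCast, map_pow]
    simp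
  rw [map_mul, ht'', hpc, hs, ← Algebra.smul_def, smul_smul, ← pow_add, Nat.sub_add_cancel hmc.le]

end Saturation

section Spanning

/-- Every homomorphism from a f.g. abelian group to `ℂ` (or any torsion-free group) which kills a
set `K` is a combination of integer valued homomorphisms killing `K`. -/
theorem exists_integral_decomposition {M : Type*} [AddCommGroup M] [AddGroup.FG M]
    {C : Type*} [AddCommGroup C] [IsAddTorsionFree C] (φ : M →+ C) :
    ∃ (n : ℕ) (c : Fin n → C) (l : Fin n → (M →+ ℤ)),
      (∀ x, φ x = ∑ i, l i x • c i) ∧ ∀ x, φ x = 0 → ∀ i, l i x = 0 := by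
  classical
  have : AddGroup.FG φ.range := AddGroup.fg_range φ
  have : Module.Finite ℤ φ.range := Module.Finite.iff_addGroup_fg.mpr inferInstance
  have : IsAddTorsionFree φ.range :=
    Function.Injective.isAddTorsionFree φ.range.subtype Subtype.val_injective
  have : Module.Free ℤ φ.range := inferInstance
  let b := Module.finBasis ℤ φ.range
  refine ⟨_, fun i => (b i : C),
    fun i => ((b.coord i).toAddMonoidHom).comp φ.rangeRestrict, fun x => ?_, fun x hx i => ?_⟩
  · have h1 := b.sum_repr (φ.rangeRestrict x)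
    have h2 := congrArg (fun y : φ.range => (y : C)) h1
    simp only [AddSubgroup.val_finsetSum, AddMonoidHom.coe_rangeRestrict] at h2
    rw [← h2]
    rfl
  · have h1 : φ.rangeRestrict x = 0 := Subtype.ext hx
    show b.coord i (φ.rangeRestrict x) = 0
    rw [h1, map_zero]

end Spanning

end Fermat.Agent.HeckePar

end
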