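import Fermat.Agent.HeckePar.Commute
import Fermat.Agent.HeckePar.CommEval
import Fermat.Agent.S21.PeriodInjective
import Fermat.Agent.S21.PeriodParabolic
import Fermat.Agent.GalRep.Input

/-!
# Hecke equivariance of the period map
-/

set_option autoImplicit false

noncomputable section

open UpperHalfPlane Filter Topology Complex Function CongruenceSubgroup Matrix.SpecialLinearGroup
open scoped MatrixGroups ModularForm

namespace Fermat.Agent.HeckePar

open Fermat.Agent.S21per ModularCurve.Period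

section Deriv

variable {f F : ℍ → ℂ}

/-- primitive of `f ∣[2] hrep p x`. -/
theorem isPrim_hrep {p : ℕ} (hp : p ≠ 0) (h : IsPrim f F) (x : Option (ZMod p)) :
    IsPrim (f ∣[(2 : ℤ)] hrep p x) (fun τ => F (hrep p x • τ)) := by
  have hpC : (p : ℂ) ≠ 0 := by exact_mod_cast hp
  cases x with
  | none =>
    refine isPrim_of_eventuallyEq (G := fun z : ℂ => (F ∘ ofComplex) ((p : ℂ) * z)) ?_ ?_
    · intro τ
      rw [hrep, ModularForm.slash_heckeDiagMatrix_apply 2 hp]
      have h1 := h (ModularForm.heckeDiagMatrix p • τ)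
      rw [ModularForm.coe_heckeDiagMatrix_smul hp] at h1
      have h2 : HasDerivAt (fun z : ℂ => (p : ℂ) * z) (p : ℂ) (τ : ℂ) := by
        simpa using (hasDerivAt_id (τ : ℂ)).const_mul (p : ℂ)
      have h3 := HasDerivAt.comp (τ : ℂ) h1 h2
      have h4 : (p : ℂ) ^ ((2 : ℤ) - 1) * f (ModularForm.heckeDiagMatrix p • τ) =
          f (ModularForm.heckeDiagMatrix p • τ) * (p : ℂ) := by
        norm_num [mul_comm]
      rw [h4]
      exact h3
    · intro τ
      show F (hrep p none • τ) = F (ofComplex ((p : ℂ) * (τ : ℂ)))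
      rw [← ModularForm.coe_heckeDiagMatrix_smul hp, ofComplex_apply]
      rfl
  | some j =>
    refine isPrim_of_eventuallyEq (G := fun z : ℂ => (F ∘ ofComplex) ((z + (j.val : ℂ)) / (p : ℂ)))
      ?_ ?_
    · intro τ
      rw [hrep, ModularForm.slash_heckeMatrix_apply 2 hp]
      have h1 := h (ModularForm.heckeMatrix p j.val • τ)
      rw [ModularForm.coe_heckeMatrix_smul hp] at h1
      have h2 : HasDerivAt (fun z : ℂ => (z + (j.val : ℂ)) / (p : ℂ)) (1 / (p : ℂ)) (τ : ℂ) :=
        ((hasDerivAt_id (τ : ℂ)).add_const (j.val : ℂ)).div_const (p : ℂ)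
      have h3 := HasDerivAt.comp (τ : ℂ) h1 h2
      have h4 : (p : ℂ)⁻¹ * f (ModularForm.heckeMatrix p j.val • τ) =
          f (ModularForm.heckeMatrix p j.val • τ) * (1 / (p : ℂ)) := by
        rw [one_div, mul_comm]
      rw [h4]
      exact h3
    · intro τ
      show F (hrep p (some j) • τ) = F (ofComplex (((τ : ℂ) + (j.val : ℂ)) / (p : ℂ)))
      rw [← ModularForm.coe_heckeMatrix_smul hp, ofComplex_apply]
      rfl

theorem isPrim_sum {ι : Type*} (s : Finset ι) (f F : ι → ℍ → ℂ) (h : ∀ i ∈ s, IsPrim (f i) (F i)) :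
    IsPrim (∑ i ∈ s, f i) (∑ i ∈ s, F i) := by
  classical
  induction s using Finset.induction_on with
  | empty =>
    intro τ
    simp only [Finset.sum_empty]
    exact hasDerivAt_const _ _
  | insert a s ha ih =>
    rw [Finset.sum_insert ha, Finset.sum_insert ha]
    exact (h a (Finset.mem_insert_self a s)).add
      (ih fun i hi => h i (Finset.mem_insert_of_mem hi))

theorem isPrim_addOp {N p : ℕ} [hp : Fact p.Prime] (h : IsPrim f F) :
    IsPrim (∑ x : HIdx N p, f ∣[(2 : ℤ)] hrep p x.1) ((heckeSys N p).addOp F) := by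
  have h1 := isPrim_sum (Finset.univ : Finset (HIdx N p)) (fun x => f ∣[(2 : ℤ)] hrep p x.1)
    (fun x τ => F (hrep p x.1 • τ)) fun x _ => isPrim_hrep hp.out.ne_zero h x.1
  have h2 : (heckeSys N p).addOp F = ∑ x : HIdx N p, fun τ => F (hrep p x.1 • τ) := by
    ext τ
    simp [CosetSys.addOp]
  rw [h2]
  exact h1

end Deriv

section Cusp

variable {N : ℕ} [NeZero N]

/-- the period of a cusp form computed from an arbitrary primitive. -/
theorem periodLin_apply_of_isPrim {f : CuspForm (Gamma0 N) 2} {F : ℍ → ℂ} (hF : IsPrim f F)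
    (γ : Gamma0 N) (z : ℍ) :
    periodLin N f (Additive.ofMul γ) = F ((γ : SL(2, ℤ)) • z) - F z := by
  obtain ⟨G, hG⟩ := exists_goodPrim f
  have h1 := hG.periodMap_apply γ z
  have h2 := hG.prim.sub_eq_sub hF ((γ : SL(2, ℤ)) • z) z
  show ModularCurve.periodMap N f (Additive.ofMul γ) = _
  rw [h1]
  linear_combination h2

/-- equivariance of a primitive -/
theorem isPrim_smul_eq {f : CuspForm (Gamma0 N) 2} {F : ℍ → ℂ} (hF : IsPrim f F)
    (γ : Gamma0 N) (z : ℍ) :
    F (iota N γ • z) = periodLin N f (Additive.ofMul γ) + F z := by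
  rw [periodLin_apply_of_isPrim hF γ z]
  have : iota N γ • z = (γ : SL(2, ℤ)) • z := rfl
  rw [this]; ring

theorem periodLin_sum_slash {f g : CuspForm (Gamma0 N) 2} {p : ℕ} [hp : Fact p.Prime]
    (h : (g : ℍ → ℂ) = ∑ x : HIdx N p, (f : ℍ → ℂ) ∣[(2 : ℤ)] hrep p x.1) :
    periodLin N g = (heckeSys N p).addTransfer (periodLin N f) := by
  obtain ⟨F, hF⟩ := exists_goodPrim f
  have h1 : IsPrim g ((heckeSys N p).addOp F) := by
    rw [h]; exact isPrim_addOp hF.prim
  refine AddMonoidHom.ext fun γ => ?_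
  obtain ⟨γ, rfl⟩ := Additive.ofMul.surjective γ
  rw [periodLin_apply_of_isPrim h1 γ UpperHalfPlane.I]
  have h2 := (heckeSys N p).addOp_smul (periodLin N f) F (isPrim_smul_eq hF.prim) γ
    UpperHalfPlane.I
  have h3 : iota N γ • UpperHalfPlane.I = (γ : SL(2, ℤ)) • UpperHalfPlane.I := rfl
  rw [h3] at h2
  rw [h2]; ring

theorem periodLin_heckeTLin {p : ℕ} [hp : Fact p.Prime] (hpN : ¬ p ∣ N)
    (f : CuspForm (Gamma0 N) 2) :
    periodLin N (CuspForm.heckeTLin 2 hp.out hpN f) =
      (heckeSys N p).addTransfer (periodLin N f) :=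
  periodLin_sum_slash (by rw [CuspForm.coe_heckeTLin_apply, heckeT_eq_sum hpN])

theorem periodLin_heckeULin {p : ℕ} [hp : Fact p.Prime] (hpN : p ∣ N)
    (f : CuspForm (Gamma0 N) 2) :
    periodLin N (CuspForm.heckeULin 2 hpN f) =
      (heckeSys N p).addTransfer (periodLin N f) :=
  periodLin_sum_slash (by rw [CuspForm.coe_heckeULin_apply, heckeU_eq_sum hpN])

theorem periodLin_injective : Function.Injective (periodLin N) := by
  intro f g h
  have h1 : ModularCurve.periodHomPair N (f - g, f - g) = 0 := by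
    rw [periodHomPair_eq, LinearMap.coprod_apply]
    simp only [LinearMap.comp_apply, LinearMap.add_apply, LinearMap.sub_apply,
      LinearMap.id_apply, map_sub, h, sub_self, add_zero]
  have h2 := periodHomPair_injective (N := N) (h1.trans (map_zero _).symm)
  have h3 : f - g = 0 := congrArg Prod.fst h2
  exact sub_eq_zero.mp h3

theorem isParabolicHom_periodLin (f : CuspForm (Gamma0 N) 2) :
    IsParabolicHom (Gamma0 N) (periodLin N f) :=
  mem_parabolicHoms_iff.mp (periodLin_mem_parabolicHoms f)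

end Cusp

end Fermat.Agent.HeckePar

end
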